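/-
PROGRAMME I (S33 long shot), leaf L1-E/L1-node, part 1: the BOUNDED AMICE RING `BAmice K` over a
complete ultrametric normed field `K`, as a normed `K`-vector space.

`BAmice K` = bi-infinite sequences `c : ℤ → K`, bounded, tending to `0` at `-∞`
(`∑ c n X^n`; the closed unit ball is the Amice ring `E = 𝒪⟦X⟧[1/X]^` of `W = 𝒪_K`).
This file: the additive/`K`-linear structure, coefficients `coeff n`, `ext`, `mk`, the Gauss norm
`‖c‖ = ⨆ n, ‖coeff n c‖`, `NormedAddCommGroup`, `IsUltrametricDist`, `NormedSpace K`,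
`norm_coeff_le`, `norm_le_iff`.
Mathlib only.
-/
import Mathlib

set_option autoImplicit false

noncomputable section

namespace Fermat.Agent.FF3.Amice

open Filter Topology

/-- The sequences underlying the bounded Amice ring, as a submodule of `ℤ → K`. -/
def seqSubmodule (K : Type*) [NormedField K] : Submodule K (ℤ → K) where
  carrier := {c | BddAbove (Set.range fun n => ‖c n‖) ∧ Tendsto c atBot (𝓝 0)}
  zero_mem' := ⟨⟨0, by rintro _ ⟨n, rfl⟩; simp⟩, tendsto_const_nhds⟩
  add_mem' := by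
    rintro c d ⟨⟨B, hB⟩, hc⟩ ⟨⟨B', hB'⟩, hd⟩
    refine ⟨⟨B + B', ?_⟩, by
      have := hc.add hd
      rw [add_zero] at this
      exact this⟩
    rintro _ ⟨n, rfl⟩
    exact (norm_add_le _ _).trans (add_le_add (hB ⟨n, rfl⟩) (hB' ⟨n, rfl⟩))
  smul_mem' := by
    rintro a c ⟨⟨B, hB⟩, hc⟩
    refine ⟨⟨‖a‖ * B, ?_⟩, by
      have := hc.const_smul a
      rw [smul_zero] at this
      exact this⟩
    rintro _ ⟨n, rfl⟩
    simp only [Pi.smul_apply, smul_eq_mul, norm_mul]
    exact mul_le_mul_of_nonneg_left (hB ⟨n, rfl⟩) (norm_nonneg _)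

/-- The bounded Amice ring over `K`: bi-infinite sequences, bounded, tending to `0` at `-∞`. -/
def BAmice (K : Type*) [NormedField K] : Type _ := ↥(seqSubmodule K)

namespace BAmice

variable {K : Type*} [NormedField K]

instance : AddCommGroup (BAmice K) := inferInstanceAs (AddCommGroup ↥(seqSubmodule K))

instance : Module K (BAmice K) := inferInstanceAs (Module K ↥(seqSubmodule K))

/-- The `n`-th coefficient, as a `K`-linear form. -/
def coeff (n : ℤ) : BAmice K →ₗ[K] K where
  toFun c := c.1 n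
  map_add' _ _ := rfl
  map_smul' _ _ := rfl

theorem ext {c d : BAmice K} (h : ∀ n, coeff n c = coeff n d) : c = d :=
  Subtype.ext (funext h)

theorem ext_iff {c d : BAmice K} : c = d ↔ ∀ n, coeff n c = coeff n d :=
  ⟨fun h _ => by rw [h], ext⟩

/-- Constructor from a bounded sequence tending to `0` at `-∞`. -/
def mk (c : ℤ → K) (hb : BddAbove (Set.range fun n => ‖c n‖)) (h0 : Tendsto c atBot (𝓝 0)) :
    BAmice K := ⟨c, hb, h0⟩

@[simp] theorem coeff_mk (c : ℤ → K) (hb : BddAbove (Set.range fun n => ‖c n‖))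
    (h0 : Tendsto c atBot (𝓝 0)) (n : ℤ) : coeff n (mk c hb h0) = c n := rfl

theorem bddAbove_norm_coeff (c : BAmice K) : BddAbove (Set.range fun n => ‖coeff n c‖) := c.2.1

theorem tendsto_coeff_atBot (c : BAmice K) : Tendsto (fun n => coeff n c) atBot (𝓝 0) := c.2.2

@[simp] theorem coeff_zero (n : ℤ) : coeff n (0 : BAmice K) = 0 := rfl

@[simp] theorem coeff_add (n : ℤ) (c d : BAmice K) : coeff n (c + d) = coeff n c + coeff n d := rfl

@[simp] theorem coeff_neg (n : ℤ) (c : BAmice K) : coeff n (-c) = -coeff n c := rfl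

@[simp] theorem coeff_sub (n : ℤ) (c d : BAmice K) : coeff n (c - d) = coeff n c - coeff n d := rfl

@[simp] theorem coeff_smul (n : ℤ) (a : K) (c : BAmice K) : coeff n (a • c) = a * coeff n c := rfl

/-- The Gauss norm. -/
def gaussNorm (c : BAmice K) : ℝ := ⨆ n, ‖coeff n c‖

theorem norm_coeff_le_gaussNorm (n : ℤ) (c : BAmice K) : ‖coeff n c‖ ≤ gaussNorm c :=
  le_ciSup c.bddAbove_norm_coeff n

theorem gaussNorm_le_iff {c : BAmice K} {r : ℝ} : gaussNorm c ≤ r ↔ ∀ n, ‖coeff n c‖ ≤ r :=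
  ⟨fun h n => (norm_coeff_le_gaussNorm n c).trans h, fun h => ciSup_le h⟩

theorem gaussNorm_nonneg (c : BAmice K) : 0 ≤ gaussNorm c :=
  (norm_nonneg _).trans (norm_coeff_le_gaussNorm 0 c)

variable [IsUltrametricDist K]

theorem gaussNorm_add_le_max (c d : BAmice K) :
    gaussNorm (c + d) ≤ max (gaussNorm c) (gaussNorm d) := by
  rw [gaussNorm_le_iff]
  intro n
  rw [coeff_add]
  exact (IsUltrametricDist.norm_add_le_max _ _).trans
    (max_le_max (norm_coeff_le_gaussNorm n c) (norm_coeff_le_gaussNorm n d))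

/-- The Gauss norm as an additive group norm. -/
def gaussAddGroupNorm : AddGroupNorm (BAmice K) where
  toFun := gaussNorm
  map_zero' := by
    apply le_antisymm _ (gaussNorm_nonneg 0)
    rw [gaussNorm_le_iff]
    intro n
    simp
  add_le' c d := by
    refine (gaussNorm_add_le_max c d).trans ?_
    exact max_le (le_add_of_nonneg_right (gaussNorm_nonneg d))
      (le_add_of_nonneg_left (gaussNorm_nonneg c))
  neg' c := by
    unfold gaussNorm
    simp
  eq_zero_of_map_eq_zero' c h := by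
    apply ext
    intro n
    have := (norm_coeff_le_gaussNorm n c).trans (le_of_eq h)
    simpa using this

instance : NormedAddCommGroup (BAmice K) := AddGroupNorm.toNormedAddCommGroup gaussAddGroupNorm

theorem norm_def (c : BAmice K) : ‖c‖ = ⨆ n, ‖coeff n c‖ := rfl

theorem norm_coeff_le (n : ℤ) (c : BAmice K) : ‖coeff n c‖ ≤ ‖c‖ := norm_coeff_le_gaussNorm n c

theorem norm_le_iff {c : BAmice K} {r : ℝ} : ‖c‖ ≤ r ↔ ∀ n, ‖coeff n c‖ ≤ r := gaussNorm_le_iff

theorem norm_lt_iff {c : BAmice K} {r : ℝ} :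
    ‖c‖ < r ↔ ∃ s, s < r ∧ ∀ n, ‖coeff n c‖ ≤ s :=
  ⟨fun h => ⟨‖c‖, h, fun n => norm_coeff_le n c⟩, fun ⟨_, hs, h⟩ => (norm_le_iff.mpr h).trans_lt hs⟩

instance : IsUltrametricDist (BAmice K) :=
  IsUltrametricDist.isUltrametricDist_of_forall_norm_add_le_max_norm gaussNorm_add_le_max

instance : NormedSpace K (BAmice K) where
  norm_smul_le a c := by
    rw [norm_le_iff]
    intro n
    rw [coeff_smul, norm_mul]
    exact mul_le_mul_of_nonneg_left (norm_coeff_le n c) (norm_nonneg _)

end BAmice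

end Fermat.Agent.FF3.Amice

end
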