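/-
PROGRAMME I (S33 long shot), leaf L1-E/L1-node, part 3: `BAmice K` is COMPLETE for the Gauss norm
(`K` a complete ultrametric normed field).
Mathlib only.
-/
import Mathlib
import Fermat.Agent.FF3.Amice.Basic

set_option autoImplicit false
set_option linter.unusedSectionVars false

noncomputable section

namespace Fermat.Agent.FF3.Amice

open Filter Topology

namespace BAmice

variable {K : Type*} [NormedField K] [IsUltrametricDist K] [CompleteSpace K]

theorem norm_sub_le_max' (x y : K) : ‖x - y‖ ≤ max ‖x‖ ‖y‖ := by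
  have := IsUltrametricDist.norm_add_le_max x (-y)
  rwa [norm_neg, ← sub_eq_add_neg] at this

instance : CompleteSpace (BAmice K) := by
  refine Metric.complete_of_cauchySeq_tendsto fun u hu => ?_
  -- uniform Cauchy estimate
  have hcau : ∀ ε > 0, ∃ N, ∀ k ≥ N, ∀ l ≥ N, ‖u k - u l‖ < ε := by
    intro ε hε
    obtain ⟨N, hN⟩ := Metric.cauchySeq_iff.mp hu ε hε
    exact ⟨N, fun k hk l hl => by rw [← dist_eq_norm]; exact hN k hk l hl⟩
  -- coefficientwise limits
  have hcoeff : ∀ n : ℤ, CauchySeq fun k => coeff n (u k) := by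
    intro n
    refine Metric.cauchySeq_iff.mpr fun ε hε => ?_
    obtain ⟨N, hN⟩ := hcau ε hε
    refine ⟨N, fun k hk l hl => ?_⟩
    rw [dist_eq_norm, ← coeff_sub]
    exact (norm_coeff_le n _).trans_lt (hN k hk l hl)
  choose c hc using fun n => cauchySeq_tendsto_of_complete (hcoeff n)
  -- uniform closeness to the limit
  have hclose : ∀ ε > 0, ∃ N, ∀ k ≥ N, ∀ n : ℤ, ‖coeff n (u k) - c n‖ ≤ ε := by
    intro ε hε
    obtain ⟨N, hN⟩ := hcau ε hε
    refine ⟨N, fun k hk n => ?_⟩
    have hlim : Tendsto (fun l => ‖coeff n (u k) - coeff n (u l)‖) atTop (𝓝 ‖coeff n (u k) - c n‖) :=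
      (tendsto_const_nhds.sub (hc n)).norm
    refine le_of_tendsto hlim ?_
    filter_upwards [eventually_ge_atTop N] with l hl
    rw [← coeff_sub]
    exact ((norm_coeff_le n _).trans_lt (hN k hk l hl)).le
  -- the limit is bounded
  obtain ⟨N₁, hN₁⟩ := hclose 1 one_pos
  have hbdd : BddAbove (Set.range fun n => ‖c n‖) := by
    refine ⟨max ‖u N₁‖ 1, ?_⟩
    rintro _ ⟨n, rfl⟩
    have h1 : c n = coeff n (u N₁) - (coeff n (u N₁) - c n) := by ring
    show ‖c n‖ ≤ max ‖u N₁‖ 1
    rw [h1]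
    refine (norm_sub_le_max' _ _).trans (max_le_max (norm_coeff_le n _) ?_)
    exact hN₁ N₁ le_rfl n
  -- the limit tends to `0` at `-∞`
  have hzero : Tendsto c atBot (𝓝 0) := by
    rw [NormedAddGroup.tendsto_nhds_zero]
    intro ε hε
    obtain ⟨N, hN⟩ := hclose (ε / 2) (by linarith)
    have h1 := (NormedAddGroup.tendsto_nhds_zero.mp (tendsto_coeff_atBot (u N))) (ε / 2)
      (by linarith)
    filter_upwards [h1] with n hn
    have h2 : c n = coeff n (u N) - (coeff n (u N) - c n) := by ring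
    rw [h2]
    refine lt_of_le_of_lt (norm_sub_le_max' _ _) (max_lt (by linarith) ?_)
    exact lt_of_le_of_lt (hN N le_rfl n) (by linarith)
  refine ⟨mk c hbdd hzero, ?_⟩
  rw [Metric.tendsto_atTop]
  intro ε hε
  obtain ⟨N, hN⟩ := hclose (ε / 2) (by linarith)
  refine ⟨N, fun k hk => ?_⟩
  rw [dist_eq_norm]
  refine lt_of_le_of_lt (norm_le_iff.mpr fun n => ?_) (by linarith : ε / 2 < ε)
  rw [coeff_sub, coeff_mk]
  exact hN k hk n

end BAmice

end Fermat.Agent.FF3.Amice

end
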