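/-
PROGRAMME I (S33 long shot), leaf L1-E/L1-node, part 2: the CONVOLUTION PRODUCT on `BAmice K`
(`K` a complete ultrametric normed field): `coeff n (c * d) = ∑' i, coeff i c * coeff (n - i) d`.

* `tendsto_cofinite_conv` / `summable_conv` : the terms tend to `0` cofinitely (one factor decays,
  the other is bounded), hence are summable;
* `conv` and its bounds (`norm_conv_le`, decay at `-∞`), `Mul`, `One`, `coeff_mul`, `coeff_one`;
* the `CommRing` structure (associativity by Fubini for cofinitely decaying families on `ℤ × ℤ`);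
* `NormedCommRing`, `NormOneClass`, `NormedAlgebra K`.
Mathlib only.
-/
import Mathlib
import Fermat.Agent.FF3.Amice.Basic

set_option autoImplicit false
set_option linter.unusedSectionVars false

noncomputable section

namespace Fermat.Agent.FF3.Amice

open Filter Topology

namespace BAmice

variable {K : Type*} [NormedField K] [IsUltrametricDist K]

/-- `n - i → -∞` as `i → +∞`. -/
theorem tendsto_const_sub_atTop_atBot (n : ℤ) : Tendsto (fun i : ℤ => n - i) atTop atBot := by
  have h : Tendsto (fun i : ℤ => -i) atTop atBot := tendsto_neg_atTop_atBot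
  have := tendsto_atBot_add_const_left atTop n h
  refine this.congr fun i => ?_
  ring

/-- The terms of the convolution tend to `0` cofinitely. -/
theorem tendsto_cofinite_conv (c d : BAmice K) (n : ℤ) :
    Tendsto (fun i : ℤ => coeff i c * coeff (n - i) d) cofinite (𝓝 0) := by
  rw [Int.cofinite_eq, tendsto_sup]
  constructor
  · -- `i → -∞`: the first factor decays
    refine squeeze_zero_norm (a := fun i => ‖coeff i c‖ * ‖d‖) (fun i => ?_) ?_
    · rw [norm_mul]
      exact mul_le_mul_of_nonneg_left (norm_coeff_le _ d) (norm_nonneg _)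
    · have := (tendsto_coeff_atBot c).norm.mul_const ‖d‖
      simpa using this
  · -- `i → +∞`: the second factor decays
    refine squeeze_zero_norm (a := fun i => ‖c‖ * ‖coeff (n - i) d‖) (fun i => ?_) ?_
    · rw [norm_mul]
      exact mul_le_mul_of_nonneg_right (norm_coeff_le _ c) (norm_nonneg _)
    · have h1 : Tendsto (fun i : ℤ => coeff (n - i) d) atTop (𝓝 0) :=
        (tendsto_coeff_atBot d).comp (tendsto_const_sub_atTop_atBot n)
      have := h1.norm.const_mul ‖c‖
      simpa using this

variable [CompleteSpace K]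

theorem summable_conv (c d : BAmice K) (n : ℤ) :
    Summable fun i : ℤ => coeff i c * coeff (n - i) d :=
  NonarchimedeanAddGroup.summable_of_tendsto_cofinite_zero (tendsto_cofinite_conv c d n)

/-- The convolution of two sequences. -/
def conv (c d : BAmice K) (n : ℤ) : K := ∑' i : ℤ, coeff i c * coeff (n - i) d

/-- Termwise bound: if every term is `≤ C` then so is the convolution coefficient. -/
theorem norm_conv_le_of_forall (c d : BAmice K) (n : ℤ) {C : ℝ} (hC : 0 ≤ C)
    (h : ∀ i : ℤ, ‖coeff i c * coeff (n - i) d‖ ≤ C) : ‖conv c d n‖ ≤ C :=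
  IsUltrametricDist.norm_tsum_le_of_forall_le_of_nonneg hC h

theorem norm_conv_le (c d : BAmice K) (n : ℤ) : ‖conv c d n‖ ≤ ‖c‖ * ‖d‖ := by
  refine norm_conv_le_of_forall c d n (mul_nonneg (norm_nonneg _) (norm_nonneg _)) fun i => ?_
  rw [norm_mul]
  exact mul_le_mul (norm_coeff_le _ c) (norm_coeff_le _ d) (norm_nonneg _) (norm_nonneg _)

theorem bddAbove_conv (c d : BAmice K) : BddAbove (Set.range fun n => ‖conv c d n‖) :=
  ⟨‖c‖ * ‖d‖, by rintro _ ⟨n, rfl⟩; exact norm_conv_le c d n⟩

/-- The convolution tends to `0` at `-∞`. -/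
theorem tendsto_conv_atBot (c d : BAmice K) : Tendsto (conv c d) atBot (𝓝 0) := by
  rw [NormedAddGroup.tendsto_nhds_zero]
  intro ε hε
  have hε2 : 0 < ε / 2 := by linarith
  -- thresholds for the two factors
  have hc : ∀ᶠ i in atBot, ‖coeff i c‖ * (‖d‖ + 1) < ε / 2 := by
    have h1 : Tendsto (fun i => ‖coeff i c‖ * (‖d‖ + 1)) atBot (𝓝 0) := by
      have := (tendsto_coeff_atBot c).norm.mul_const (‖d‖ + 1)
      simpa using this
    exact h1.eventually (gt_mem_nhds hε2)
  have hd : ∀ᶠ i in atBot, (‖c‖ + 1) * ‖coeff i d‖ < ε / 2 := by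
    have h1 : Tendsto (fun i => (‖c‖ + 1) * ‖coeff i d‖) atBot (𝓝 0) := by
      have := (tendsto_coeff_atBot d).norm.const_mul (‖c‖ + 1)
      simpa using this
    exact h1.eventually (gt_mem_nhds hε2)
  obtain ⟨M₁, hM₁⟩ := eventually_atBot.mp hc
  obtain ⟨M₂, hM₂⟩ := eventually_atBot.mp hd
  set M : ℤ := min M₁ M₂ with hM
  refine eventually_atBot.mpr ⟨2 * M - 1, fun n hn => ?_⟩
  refine lt_of_le_of_lt (norm_conv_le_of_forall c d n hε2.le fun i => ?_) (by linarith)
  rw [norm_mul]
  rcases le_or_gt i M with hi | hi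
  · calc ‖coeff i c‖ * ‖coeff (n - i) d‖ ≤ ‖coeff i c‖ * (‖d‖ + 1) :=
          mul_le_mul_of_nonneg_left ((norm_coeff_le _ d).trans (by linarith)) (norm_nonneg _)
      _ ≤ ε / 2 := (hM₁ i (hi.trans (min_le_left _ _))).le
  · have hni : n - i ≤ M₂ := by
      have : n - i ≤ M := by omega
      exact this.trans (min_le_right _ _)
    calc ‖coeff i c‖ * ‖coeff (n - i) d‖ ≤ (‖c‖ + 1) * ‖coeff (n - i) d‖ :=
          mul_le_mul_of_nonneg_right ((norm_coeff_le _ c).trans (by linarith)) (norm_nonneg _)
      _ ≤ ε / 2 := (hM₂ _ hni).le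

instance : Mul (BAmice K) := ⟨fun c d => mk (conv c d) (bddAbove_conv c d) (tendsto_conv_atBot c d)⟩

theorem coeff_mul (n : ℤ) (c d : BAmice K) :
    coeff n (c * d) = ∑' i : ℤ, coeff i c * coeff (n - i) d := rfl

theorem summable_coeff_mul (n : ℤ) (c d : BAmice K) :
    Summable fun i : ℤ => coeff i c * coeff (n - i) d := summable_conv c d n

theorem norm_mul_le' (c d : BAmice K) : ‖c * d‖ ≤ ‖c‖ * ‖d‖ := by
  rw [norm_le_iff]
  intro n
  exact norm_conv_le c d n

/-- `∑ a X^k` with a single nonzero coefficient. -/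
def single (k : ℤ) (a : K) : BAmice K :=
  mk (fun n => if n = k then a else 0)
    ⟨‖a‖, by
      rintro _ ⟨n, rfl⟩
      show ‖(if n = k then a else 0)‖ ≤ ‖a‖
      split_ifs
      · exact le_rfl
      · simp⟩
    (by
      refine tendsto_const_nhds.congr' ?_
      filter_upwards [eventually_lt_atBot k] with n hn
      rw [if_neg hn.ne])

@[simp] theorem coeff_single (k n : ℤ) (a : K) :
    coeff n (single k a) = if n = k then a else 0 := rfl

theorem coeff_single_self (k : ℤ) (a : K) : coeff k (single k a) = a := by simp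

theorem coeff_single_of_ne {k n : ℤ} (h : n ≠ k) (a : K) : coeff n (single k a) = 0 := by
  simp [h]

instance : One (BAmice K) := ⟨single 0 1⟩

theorem one_def : (1 : BAmice K) = single 0 1 := rfl

@[simp] theorem coeff_one (n : ℤ) : coeff n (1 : BAmice K) = if n = 0 then 1 else 0 := rfl

/-- Multiplication by a monomial shifts the coefficients. -/
theorem coeff_single_mul (k n : ℤ) (a : K) (c : BAmice K) :
    coeff n (single k a * c) = a * coeff (n - k) c := by
  rw [coeff_mul, tsum_eq_single k]
  · rw [coeff_single_self]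
  · intro i hi
    rw [coeff_single_of_ne hi, zero_mul]

theorem mul_comm' (c d : BAmice K) : c * d = d * c := by
  apply ext
  intro n
  rw [coeff_mul, coeff_mul, ← (Equiv.subLeft n).tsum_eq]
  refine tsum_congr fun i => ?_
  simp only [Equiv.subLeft_apply, sub_sub_cancel]
  exact mul_comm _ _

theorem one_mul' (c : BAmice K) : 1 * c = c := by
  apply ext
  intro n
  rw [one_def, coeff_single_mul, one_mul, sub_zero]

theorem mul_add' (c d e : BAmice K) : c * (d + e) = c * d + c * e := by
  apply ext
  intro n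
  rw [coeff_add, coeff_mul, coeff_mul, coeff_mul, ← (summable_conv c d n).tsum_add
    (summable_conv c e n)]
  refine tsum_congr fun i => ?_
  rw [coeff_add, mul_add]

theorem zero_mul' (c : BAmice K) : 0 * c = 0 := by
  apply ext
  intro n
  rw [coeff_mul]
  simp

/-! ### Associativity -/

/-- Eventually (at `-∞`) the coefficients are smaller than any `δ > 0`. -/
theorem exists_forall_le_norm_coeff_lt (c : BAmice K) {δ : ℝ} (hδ : 0 < δ) :
    ∃ M : ℤ, ∀ i ≤ M, ‖coeff i c‖ < δ := by
  have h := (NormedAddGroup.tendsto_nhds_zero.mp (tendsto_coeff_atBot c)) δ hδ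
  exact eventually_atBot.mp h

/-- The triple family `c i * d j * e (n - i - j)` tends to `0` cofinitely on `ℤ × ℤ`. -/
theorem tendsto_cofinite_triple (c d e : BAmice K) (n : ℤ) :
    Tendsto (fun p : ℤ × ℤ => coeff p.1 c * coeff p.2 d * coeff (n - p.1 - p.2) e) cofinite
      (𝓝 0) := by
  rw [NormedAddGroup.tendsto_nhds_zero]
  intro ε hε
  rw [eventually_cofinite]
  set B : ℝ := max (max ‖c‖ ‖d‖) ‖e‖ + 1 with hB
  have hB1 : 0 < B := by
    have : 0 ≤ max (max ‖c‖ ‖d‖) ‖e‖ := le_max_of_le_right (norm_nonneg _)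
    linarith
  have hcB : ∀ i, ‖coeff i c‖ ≤ B := fun i =>
    (norm_coeff_le i c).trans (by
      have : ‖c‖ ≤ max (max ‖c‖ ‖d‖) ‖e‖ := le_max_of_le_left (le_max_left _ _)
      linarith)
  have hdB : ∀ i, ‖coeff i d‖ ≤ B := fun i =>
    (norm_coeff_le i d).trans (by
      have : ‖d‖ ≤ max (max ‖c‖ ‖d‖) ‖e‖ := le_max_of_le_left (le_max_right _ _)
      linarith)
  have heB : ∀ i, ‖coeff i e‖ ≤ B := fun i =>
    (norm_coeff_le i e).trans (by
      have : ‖e‖ ≤ max (max ‖c‖ ‖d‖) ‖e‖ := le_max_right _ _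
      linarith)
  set δ : ℝ := ε / (B * B) with hδ
  have hδ0 : 0 < δ := div_pos hε (mul_pos hB1 hB1)
  have hδB : δ * (B * B) = ε := by
    rw [hδ]; field_simp
  obtain ⟨Mc, hMc⟩ := exists_forall_le_norm_coeff_lt c hδ0
  obtain ⟨Md, hMd⟩ := exists_forall_le_norm_coeff_lt d hδ0
  obtain ⟨Me, hMe⟩ := exists_forall_le_norm_coeff_lt e hδ0
  set M : ℤ := min (min Mc Md) Me with hM
  have hMc' : M ≤ Mc := (min_le_left _ _).trans (min_le_left _ _)
  have hMd' : M ≤ Md := (min_le_left _ _).trans (min_le_right _ _)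
  have hMe' : M ≤ Me := min_le_right _ _
  refine Set.Finite.subset ((Set.finite_Ioo M (n - 2 * M)).prod (Set.finite_Ioo M (n - 2 * M))) ?_
  rintro ⟨i, j⟩ hp
  simp only [Set.mem_ofPred_eq, not_lt] at hp
  -- all three indices are `> M`
  have hi : M < i := by
    by_contra hcon
    have h1 : ‖coeff i c‖ < δ := hMc i ((not_lt.mp hcon).trans hMc')
    have h2 : ‖coeff i c * coeff j d * coeff (n - i - j) e‖ < ε := by
      rw [norm_mul, norm_mul, ← hδB, mul_assoc]
      have h3 : ‖coeff j d‖ * ‖coeff (n - i - j) e‖ ≤ B * B :=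
        mul_le_mul (hdB j) (heB _) (norm_nonneg _) hB1.le
      calc ‖coeff i c‖ * (‖coeff j d‖ * ‖coeff (n - i - j) e‖)
          ≤ ‖coeff i c‖ * (B * B) := mul_le_mul_of_nonneg_left h3 (norm_nonneg _)
        _ < δ * (B * B) := mul_lt_mul_of_pos_right h1 (mul_pos hB1 hB1)
    exact absurd hp (not_le.mpr h2)
  have hj : M < j := by
    by_contra hcon
    have h1 : ‖coeff j d‖ < δ := hMd j ((not_lt.mp hcon).trans hMd')
    have h2 : ‖coeff i c * coeff j d * coeff (n - i - j) e‖ < ε := by
      rw [norm_mul, norm_mul, ← hδB]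
      have h3 : ‖coeff i c‖ * ‖coeff (n - i - j) e‖ ≤ B * B :=
        mul_le_mul (hcB i) (heB _) (norm_nonneg _) hB1.le
      calc ‖coeff i c‖ * ‖coeff j d‖ * ‖coeff (n - i - j) e‖
          = ‖coeff j d‖ * (‖coeff i c‖ * ‖coeff (n - i - j) e‖) := by ring
        _ ≤ ‖coeff j d‖ * (B * B) := mul_le_mul_of_nonneg_left h3 (norm_nonneg _)
        _ < δ * (B * B) := mul_lt_mul_of_pos_right h1 (mul_pos hB1 hB1)
    exact absurd hp (not_le.mpr h2)
  have hk : M < n - i - j := by
    by_contra hcon
    have h1 : ‖coeff (n - i - j) e‖ < δ := hMe _ ((not_lt.mp hcon).trans hMe')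
    have h2 : ‖coeff i c * coeff j d * coeff (n - i - j) e‖ < ε := by
      rw [norm_mul, norm_mul, ← hδB]
      have h3 : ‖coeff i c‖ * ‖coeff j d‖ ≤ B * B :=
        mul_le_mul (hcB i) (hdB j) (norm_nonneg _) hB1.le
      calc ‖coeff i c‖ * ‖coeff j d‖ * ‖coeff (n - i - j) e‖
          = ‖coeff (n - i - j) e‖ * (‖coeff i c‖ * ‖coeff j d‖) := by ring
        _ ≤ ‖coeff (n - i - j) e‖ * (B * B) := mul_le_mul_of_nonneg_left h3 (norm_nonneg _)
        _ < δ * (B * B) := mul_lt_mul_of_pos_right h1 (mul_pos hB1 hB1)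
    exact absurd hp (not_le.mpr h2)
  refine Set.mk_mem_prod ⟨hi, ?_⟩ ⟨hj, ?_⟩ <;> omega

theorem summable_triple (c d e : BAmice K) (n : ℤ) :
    Summable fun p : ℤ × ℤ => coeff p.1 c * coeff p.2 d * coeff (n - p.1 - p.2) e :=
  NonarchimedeanAddGroup.summable_of_tendsto_cofinite_zero (tendsto_cofinite_triple c d e n)

/-- The shear `(m, i) ↦ (i, m - i)` of `ℤ × ℤ`. -/
def shear : ℤ × ℤ ≃ ℤ × ℤ where
  toFun p := (p.2, p.1 - p.2)
  invFun q := (q.1 + q.2, q.1)
  left_inv p := by ext <;> simp
  right_inv q := by ext <;> simp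

theorem mul_assoc' (c d e : BAmice K) : c * d * e = c * (d * e) := by
  apply ext
  intro n
  set F : ℤ × ℤ → K := fun p => coeff p.1 c * coeff p.2 d * coeff (n - p.1 - p.2) e with hF
  have hFs : Summable F := summable_triple c d e n
  -- right-hand side
  have hR : coeff n (c * (d * e)) = ∑' p : ℤ × ℤ, F p := by
    rw [hFs.tsum_prod, coeff_mul]
    refine tsum_congr fun i => ?_
    rw [coeff_mul, ← tsum_mul_left]
    refine tsum_congr fun j => ?_
    simp only [hF]
    rw [mul_assoc]
  -- left-hand side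
  have hGs : Summable (F ∘ shear) := (shear.summable_iff).mpr hFs
  have hL : coeff n (c * d * e) = ∑' p : ℤ × ℤ, (F ∘ shear) p := by
    rw [hGs.tsum_prod, coeff_mul]
    refine tsum_congr fun m => ?_
    rw [coeff_mul, ← tsum_mul_right]
    refine tsum_congr fun i => ?_
    simp only [hF, Function.comp_apply, shear, Equiv.coe_fn_mk]
    have hidx : n - i - (m - i) = n - m := by omega
    rw [hidx]
  rw [hL, hR]
  exact shear.tsum_eq F

instance : CommRing (BAmice K) :=
  { (inferInstance : AddCommGroup (BAmice K)) with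
    mul := (· * ·)
    one := 1
    mul_assoc := mul_assoc'
    one_mul := one_mul'
    mul_one := fun c => by rw [mul_comm', one_mul']
    left_distrib := mul_add'
    right_distrib := fun c d e => by
      rw [mul_comm' (c + d) e, mul_add', mul_comm' e c, mul_comm' e d]
    zero_mul := zero_mul'
    mul_zero := fun c => by rw [mul_comm', zero_mul']
    mul_comm := mul_comm' }

instance : NormedCommRing (BAmice K) :=
  { (inferInstance : NormedAddCommGroup (BAmice K)), (inferInstance : CommRing (BAmice K)) with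
    norm_mul_le := norm_mul_le' }

instance : NormOneClass (BAmice K) := ⟨by
  apply le_antisymm
  · rw [norm_le_iff]
    intro n
    rw [coeff_one]
    split_ifs <;> simp
  · have := norm_coeff_le 0 (1 : BAmice K)
    simpa using this⟩

theorem smul_mul_assoc' (a : K) (c d : BAmice K) : (a • c) * d = a • (c * d) := by
  apply ext
  intro n
  rw [coeff_smul, coeff_mul, coeff_mul, ← tsum_mul_left]
  refine tsum_congr fun i => ?_
  rw [coeff_smul, mul_assoc]

instance : Algebra K (BAmice K) :=
  Algebra.ofModule smul_mul_assoc' fun a c d => by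
    rw [mul_comm c (a • d), smul_mul_assoc', mul_comm]

theorem algebraMap_eq (a : K) : algebraMap K (BAmice K) a = a • (1 : BAmice K) :=
  Algebra.algebraMap_eq_smul_one a

@[simp] theorem coeff_algebraMap (n : ℤ) (a : K) :
    coeff n (algebraMap K (BAmice K) a) = if n = 0 then a else 0 := by
  rw [algebraMap_eq, coeff_smul, coeff_one]
  split_ifs <;> simp

instance : NormedAlgebra K (BAmice K) where
  norm_smul_le a c := norm_smul_le a c

/-! ### The unit `X` -/

theorem single_mul_single (j k : ℤ) (a b : K) : single j a * single k b = single (j + k) (a * b) := by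
  apply ext
  intro n
  rw [coeff_single_mul, coeff_single, coeff_single]
  by_cases h : n = j + k
  · rw [if_pos h, if_pos (by omega)]
  · rw [if_neg h, if_neg (by omega), mul_zero]

/-- The variable `X`, a unit of `BAmice K`. -/
def X : (BAmice K)ˣ where
  val := single 1 1
  inv := single (-1) 1
  val_inv := by rw [single_mul_single]; simp [one_def]
  inv_val := by rw [single_mul_single]; simp [one_def]

theorem coe_X : ((X : (BAmice K)ˣ) : BAmice K) = single 1 1 := rfl

theorem coe_X_inv : ((X⁻¹ : (BAmice K)ˣ) : BAmice K) = single (-1) 1 := rfl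

theorem coe_X_zpow (k : ℤ) : ((X ^ k : (BAmice K)ˣ) : BAmice K) = single k 1 := by
  induction k using Int.induction_on with
  | zero => simp [one_def]
  | succ k ih =>
    rw [zpow_add_one, Units.val_mul, ih, coe_X, single_mul_single, mul_one]
  | pred k ih =>
    rw [zpow_sub_one, Units.val_mul, ih, coe_X_inv, single_mul_single, mul_one]
    rfl

theorem coeff_X_zpow_mul (k n : ℤ) (c : BAmice K) :
    coeff n (((X ^ k : (BAmice K)ˣ) : BAmice K) * c) = coeff (n - k) c := by
  rw [coe_X_zpow, coeff_single_mul, one_mul]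

end BAmice

end Fermat.Agent.FF3.Amice

end
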